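import Fermat.Agent.S48.Rat.Eis.Raw

/-!
# S48-RAT : the full lattice sum `∑_v χ(v₀) (v₀ z + v₁)⁻³` is `L(3,χ) · eisRaw χ`
-/

set_option autoImplicit false

open UpperHalfPlane ModularForm CongruenceSubgroup EisensteinSeries
open scoped MatrixGroups Manifold

namespace Fermat.Agent.S48.Rat

variable {N : ℕ} [NeZero N] (χ : DirichletCharacter ℂ N)

/-- summability of the twisted lattice sum (`‖χ‖ ≤ 1`, `summable_norm_eisSummand`). -/
theorem summable_twisted (z : ℍ) :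
    Summable fun v : Fin 2 → ℤ => χ ((v 0 : ℤ) : ZMod N) * eisSummand 3 v z := by
  refine Summable.of_norm_bounded (summable_norm_eisSummand (k := 3) le_rfl z) (fun v => ?_)
  rw [norm_mul]
  exact mul_le_of_le_one_left (norm_nonneg _) (χ.norm_le_one _)

/-- the term at `v = n • w`. -/
theorem Gcd_term (z : ℍ) {n : ℕ} (v : gammaSet 1 n 0) :
    χ (((v : Fin 2 → ℤ) 0 : ℤ) : ZMod N) * eisSummand 3 v z =
      (χ (n : ZMod N) * ((n : ℂ) ^ 3)⁻¹) *
        (χ (((divIntMap n (v : Fin 2 → ℤ)) 0 : ℤ) : ZMod N) *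
          eisSummand 3 (divIntMap n (v : Fin 2 → ℤ)) z) := by
  have h1 := eisSummand_of_gammaSet_eq_divIntMap 3 z v
  have h2 : ((v : Fin 2 → ℤ) 0 : ℤ) = n * (divIntMap n (v : Fin 2 → ℤ)) 0 := by
    have := congrFun (gammaSet_eq_gcd_mul_divIntMap v.2) 0
    simpa using this
  have h3 : χ (((v : Fin 2 → ℤ) 0 : ℤ) : ZMod N) =
      χ (n : ZMod N) * χ (((divIntMap n (v : Fin 2 → ℤ)) 0 : ℤ) : ZMod N) := by
    rw [← map_mul, ← Int.cast_natCast (R := ZMod N) n, ← Int.cast_mul, ← h2]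
  have h4 : ((n : ℂ) ^ (3 : ℤ)) = (n : ℂ) ^ 3 := by norm_cast
  rw [h1, h3, h4]
  ring

/-- PROOF. Port of Mathlib's `tsum_eisSummand_eq_riemannZeta_mul_eisensteinSeries`
(`Mathlib/NumberTheory/ModularForms/EisensteinSeries/QExpansion.lean`): reindex by
`gammaSetDivGcdSigmaEquiv`, `v = n • w` with `w` coprime, `χ(n w₀) = χ(n) χ(w₀)`,
`eisSummand_of_gammaSet_eq_divIntMap`. -/
theorem tsum_twisted_gcd (z : ℍ) :
    ∑' v : Fin 2 → ℤ, χ ((v 0 : ℤ) : ZMod N) * eisSummand 3 v z =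
      (∑' n : ℕ, χ (n : ZMod N) * ((n : ℂ) ^ 3)⁻¹) *
        ∑' v : gammaSet 1 1 0, χ (((v : Fin 2 → ℤ) 0 : ℤ) : ZMod N) * eisSummand 3 v z := by
  have hsum := summable_twisted χ z
  have hs : Summable fun x : (Σ r : ℕ, gammaSet 1 r 0) =>
      χ ((((x.2 : gammaSet 1 x.1 0) : Fin 2 → ℤ) 0 : ℤ) : ZMod N) *
        eisSummand 3 ((x.2 : gammaSet 1 x.1 0) : Fin 2 → ℤ) z :=
    (gammaSetDivGcdSigmaEquiv.symm.summable_iff.mpr hsum).congr (fun x => by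
      simp only [Function.comp_apply, gammaSetDivGcdSigmaEquiv_symm_eq])
  rw [← gammaSetDivGcdSigmaEquiv.symm.tsum_eq
    (fun v : Fin 2 → ℤ => χ ((v 0 : ℤ) : ZMod N) * eisSummand 3 v z)]
  simp_rw [gammaSetDivGcdSigmaEquiv_symm_eq]
  rw [Summable.tsum_sigma hs, ← tsum_mul_right]
  refine tsum_congr fun b => ?_
  rw [tsum_congr (fun c : gammaSet 1 b 0 => Gcd_term χ z c), tsum_mul_left]
  rcases eq_or_ne b 0 with rfl | hb
  · simp
  · have : NeZero b := ⟨hb⟩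
    congr 1
    exact (gammaSetDivGcdEquiv b).tsum_eq
      (fun w : gammaSet 1 1 0 => χ (((w : Fin 2 → ℤ) 0 : ℤ) : ZMod N) * eisSummand 3 w z)

/-- the partition of the coprime vectors according to their residue class mod `N`. -/
def Gcd_sigmaEquiv (N : ℕ) : (Σ a : Fin 2 → ZMod N, gammaSet N 1 a) ≃ gammaSet 1 1 0 where
  toFun x := ⟨x.2.1, (gammaSet_one_mem_iff 1 _).mpr x.2.2.2⟩
  invFun v := ⟨((↑) : ℤ → ZMod N) ∘ (v : Fin 2 → ℤ),
    ⟨v.1, rfl, (gammaSet_one_mem_iff 1 _).mp v.2⟩⟩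
  left_inv := by
    rintro ⟨a, v, rfl, hv⟩
    rfl
  right_inv v := rfl

/-- PROOF. Partition the coprime vectors according to their residue class `a` mod `N`
(a finite type): `gammaSet 1 1 0 ≃ Σ a, gammaSet N 1 a`; `Summable.tsum_sigma`/`tsum_fintype`;
on `gammaSet N 1 a` one has `χ(v₀) = χ(a₀)`. -/
theorem tsum_coprime_eq_eisRaw (z : ℍ) :
    ∑' v : gammaSet 1 1 0, χ (((v : Fin 2 → ℤ) 0 : ℤ) : ZMod N) * eisSummand 3 v z =
      eisRaw χ z := by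
  have hsum : Summable fun v : gammaSet 1 1 0 =>
      χ (((v : Fin 2 → ℤ) 0 : ℤ) : ZMod N) * eisSummand 3 v z :=
    (summable_twisted χ z).subtype _
  have hsum' : Summable fun x : (Σ a : Fin 2 → ZMod N, gammaSet N 1 a) =>
      χ ((((Gcd_sigmaEquiv N x : gammaSet 1 1 0) : Fin 2 → ℤ) 0 : ℤ) : ZMod N) *
        eisSummand 3 (Gcd_sigmaEquiv N x : gammaSet 1 1 0) z :=
    (Gcd_sigmaEquiv N).summable_iff.mpr hsum
  rw [← (Gcd_sigmaEquiv N).tsum_eq, hsum'.tsum_sigma, tsum_fintype, eisRaw_apply]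
  refine Finset.sum_congr rfl fun a _ => ?_
  rw [eisensteinSeries, ← tsum_mul_left]
  refine tsum_congr fun v => ?_
  have h1 : ((((Gcd_sigmaEquiv N ⟨a, v⟩ : gammaSet 1 1 0) : Fin 2 → ℤ) 0 : ℤ) : ZMod N) = a 0 :=
    congrFun v.2.1 0
  rw [h1]
  rfl

end Fermat.Agent.S48.Rat
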