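import Fermat.Agent.S48.Rat.Eis.Gcd

/-!
# S48-RAT : the `q`-expansion of the full lattice sum `∑_v χ(v₀) (v₀ z + v₁)⁻³`
-/

set_option autoImplicit false

open UpperHalfPlane hiding I
open ModularForm CongruenceSubgroup EisensteinSeries Complex Real
open scoped MatrixGroups Manifold

namespace Fermat.Agent.S48.Rat

variable {N : ℕ} [NeZero N] (χ : DirichletCharacter ℂ N)

/-- the coefficients `∑_{d ∣ n} χ(d) (n/d)²`. -/
noncomputable def eisCoeff (n : ℕ) : ℂ :=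
  ∑ d ∈ n.divisors, χ (d : ZMod N) * ((n / d : ℕ) : ℂ) ^ 2

/-- PROOF. Port of Mathlib's `tsum_prod_pow_eq_tsum_sigma`
(`Mathlib/NumberTheory/TsumDivisorsAntidiagonal.lean`); summability from `summable_prod_mul_pow`
by comparison (`‖χ‖ ≤ 1`). -/
theorem tsum_prod_twisted {r : ℂ} (hr : ‖r‖ < 1) :
    ∑' d : ℕ+, ∑' c : ℕ+, χ ((d : ℕ) : ZMod N) * (c : ℂ) ^ 2 * r ^ (d * c : ℕ) =
      ∑' e : ℕ+, eisCoeff χ e * r ^ (e : ℕ) := by
  have hF : Summable fun c : ℕ+ × ℕ+ =>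
      χ ((c.1 : ℕ) : ZMod N) * (c.2 : ℂ) ^ 2 * r ^ (c.1 * c.2 : ℕ) := by
    refine Summable.of_norm_bounded
      (g := fun c : ℕ+ × ℕ+ => ‖(c.2 : ℂ) ^ 2 * r ^ (c.1 * c.2 : ℕ)‖)
      (summable_prod_mul_pow 2 hr).norm fun c => ?_
    rw [mul_assoc, norm_mul]
    exact mul_le_of_le_one_left (norm_nonneg _) (χ.norm_le_one _)
  have hG : Summable fun c : (n : ℕ+) × (n : ℕ).divisorsAntidiagonal =>
      χ (((sigmaAntidiagonalEquivProd c).1 : ℕ) : ZMod N) *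
        ((sigmaAntidiagonalEquivProd c).2 : ℂ) ^ 2 *
        r ^ ((sigmaAntidiagonalEquivProd c).1 * (sigmaAntidiagonalEquivProd c).2 : ℕ) :=
    sigmaAntidiagonalEquivProd.summable_iff.2 hF
  rw [← hF.tsum_prod, ← sigmaAntidiagonalEquivProd.tsum_eq, hG.tsum_sigma]
  refine tsum_congr fun n => ?_
  rw [tsum_fintype, eisCoeff, Finset.sum_mul,
    ← Nat.sum_divisorsAntidiagonal (fun x y => χ (x : ZMod N) * (y : ℂ) ^ 2 * r ^ (n : ℕ)),
    Finset.univ_eq_attach, ← Finset.sum_attach (n : ℕ).divisorsAntidiagonal]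
  refine Finset.sum_congr rfl fun x _ => ?_
  have h1 : ((divisorsAntidiagonalFactors n x).1 : ℕ) * ((divisorsAntidiagonalFactors n x).2 : ℕ) =
      (n : ℕ) := divisorsAntidiagonalFactors_eq x
  change χ (((divisorsAntidiagonalFactors n x).1 : ℕ) : ZMod N) *
    (((divisorsAntidiagonalFactors n x).2 : ℕ) : ℂ) ^ 2 *
    r ^ (((divisorsAntidiagonalFactors n x).1 : ℕ) * ((divisorsAntidiagonalFactors n x).2 : ℕ)) = _
  rw [h1]
  rfl

theorem Lip_summable_prod (z : ℍ) :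
    Summable fun x : ℤ × ℤ => χ ((x.1 : ℤ) : ZMod N) * eisSummand 3 ![x.1, x.2] z := by
  refine (finTwoArrowEquiv ℤ).summable_iff.mp <| (summable_twisted χ z).congr (fun v ↦ ?_)
  simp [show ![v 0, v 1] = v from List.ofFn_inj.mp rfl]

theorem Lip_zero (hχ : χ (-1) = -1) : χ 0 = 0 := by
  by_contra h0
  have hu : IsUnit (0 : ZMod N) := by
    by_contra hu
    exact h0 (MulChar.map_nonunit χ hu)
  have hsub : Subsingleton (ZMod N) := by
    rw [isUnit_zero_iff] at hu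
    exact subsingleton_of_zero_eq_one hu
  have h1 : (-1 : ZMod N) = 1 := Subsingleton.elim _ _
  rw [h1, map_one] at hχ
  norm_num at hχ

/-- PROOF. Port of Mathlib's `tsum_eisSummand_eq_tsum_sigma_mul_cexp_pow`
(`.../EisensteinSeries/QExpansion.lean`).  The row `v₀ = 0` vanishes because `χ 0 = 0`
(`N ≠ 1` since `χ (-1) = -1 ≠ 1`); the rows `v₀ = -m` and `v₀ = m` are equal because
`χ(-m) (-1)³ = χ(m)`; `qExpansion_identity_pnat` with `k = 2` for the row `v₀ = m > 0`;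
then `tsum_prod_twisted`. -/
theorem tsum_twisted_eq_q (hχ : χ (-1) = -1) (z : ℍ) :
    ∑' v : Fin 2 → ℤ, χ ((v 0 : ℤ) : ZMod N) * eisSummand 3 v z =
      2 * ((-2 * π * I) ^ 3 / 2) * ∑' n : ℕ+, eisCoeff χ n * cexp (2 * π * I * z) ^ (n : ℕ) := by
  rw [← (finTwoArrowEquiv ℤ).symm.tsum_eq]
  simp only [finTwoArrowEquiv_symm_apply, Matrix.cons_val_zero]
  rw [Summable.tsum_prod (Lip_summable_prod χ z),
    tsum_int_eq_zero_add_two_mul_tsum_pnat (fun n ↦ ?h₁)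
      (by simpa using (Lip_summable_prod χ z).prod)]
  case h₁ =>
    nth_rewrite 1 [← tsum_comp_neg]
    refine tsum_congr fun y ↦ ?_
    have h1 : χ (((-n : ℤ)) : ZMod N) = - χ ((n : ℤ) : ZMod N) := by
      rw [Int.cast_neg, ← neg_one_mul, map_mul, hχ, neg_one_mul]
    have h2 : eisSummand 3 ![-n, -y] z = - eisSummand 3 ![n, y] z := by
      simp only [eisSummand, Matrix.cons_val_zero, Matrix.cons_val_one, Int.cast_neg]
      have : (-(n : ℂ) * (z : ℂ) + -(y : ℂ)) = -((n : ℂ) * z + y) := by ring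
      rw [this, (show Odd (-3 : ℤ) by decide).neg_zpow]
    show χ (((-n : ℤ)) : ZMod N) * eisSummand 3 ![-n, -y] z =
      χ ((n : ℤ) : ZMod N) * eisSummand 3 ![n, y] z
    rw [h1, h2]
    ring
  have h0 : ∑' (c : ℤ), χ (((0 : ℤ), c).1 : ZMod N) * eisSummand 3 ![((0 : ℤ), c).1, ((0 : ℤ), c).2] z
      = 0 := by
    simp [Lip_zero χ hχ]
  rw [h0, zero_add, nsmul_eq_mul, mul_assoc]
  congr 1
  have H (b : ℕ+) := qExpansion_identity_pnat (k := 2) (by norm_num) ⟨b * z, by simpa using z.2⟩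
  have hrow : ∀ n : ℕ+, ∑' (c : ℤ), χ ((((n : ℕ) : ℤ), c).1 : ZMod N) *
      eisSummand 3 ![(((n : ℕ) : ℤ), c).1, (((n : ℕ) : ℤ), c).2] z =
      ((-2 * π * I) ^ 3 / 2) * ∑' c : ℕ+, χ ((n : ℕ) : ZMod N) * (c : ℂ) ^ 2 *
        cexp (2 * π * I * z) ^ (n * c : ℕ) := by
    intro n
    have h3 := H n
    simp only [Nat.reduceAdd, Nat.factorial] at h3
    have h4 : ∀ c : ℤ, χ ((((n : ℕ) : ℤ), c).1 : ZMod N) *
        eisSummand 3 ![(((n : ℕ) : ℤ), c).1, (((n : ℕ) : ℤ), c).2] z =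
        χ ((n : ℕ) : ZMod N) * (1 / ((n : ℂ) * z + c) ^ 3) := by
      intro c
      simp only [eisSummand, Matrix.cons_val_zero, Matrix.cons_val_one, Int.cast_natCast]
      rw [zpow_neg, one_div]
      norm_cast
    simp_rw [h4]
    rw [tsum_mul_left, h3, ← tsum_mul_left, ← tsum_mul_left, ← tsum_mul_left]
    refine tsum_congr fun c => ?_
    rw [← Complex.exp_nat_mul, ← Complex.exp_nat_mul]
    have : ((c : ℕ) : ℂ) * (2 * π * I * ((n : ℂ) * z)) = ((n * c : ℕ) : ℂ) * (2 * π * I * z) := by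
      push_cast; ring
    rw [this]
    push_cast
    ring
  simp_rw [hrow]
  rw [tsum_mul_left, tsum_prod_twisted χ (norm_exp_two_pi_I_lt_one z)]

end Fermat.Agent.S48.Rat
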