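import Fermat.Agent.S48.Rat.Eis.Lip

/-!
# S48-RAT : the weight 3 Eisenstein series `∑_n (∑_{d ∣ n} χ(d) (n/d)²) qⁿ` on `Γ₁(N)`
with nebentypus `χ` (`χ` odd)
-/

set_option autoImplicit false

open UpperHalfPlane hiding I
open ModularForm CongruenceSubgroup EisensteinSeries Complex Real
open scoped MatrixGroups Manifold

namespace Fermat.Agent.S48.Rat

variable {N : ℕ} [NeZero N] (χ : DirichletCharacter ℂ N)

theorem eisCoeff_zero : eisCoeff χ 0 = 0 := by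
  simp [eisCoeff]

theorem eisCoeff_one : eisCoeff χ 1 = 1 := by
  simp [eisCoeff]

theorem Main_norm_eisCoeff_le (n : ℕ) : ‖eisCoeff χ n‖ ≤ (n : ℝ) ^ 3 := by
  unfold eisCoeff
  calc ‖∑ d ∈ n.divisors, χ (d : ZMod N) * ((n / d : ℕ) : ℂ) ^ 2‖
      ≤ ∑ d ∈ n.divisors, ‖χ (d : ZMod N) * ((n / d : ℕ) : ℂ) ^ 2‖ := norm_sum_le _ _
    _ ≤ ∑ d ∈ n.divisors, (n : ℝ) ^ 2 := by
        refine Finset.sum_le_sum fun d _ => ?_
        rw [norm_mul, norm_pow, Complex.norm_natCast]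
        calc ‖χ (d : ZMod N)‖ * ((n / d : ℕ) : ℝ) ^ 2 ≤ 1 * (n : ℝ) ^ 2 :=
              mul_le_mul (χ.norm_le_one _)
                (pow_le_pow_left₀ (by positivity) (by exact_mod_cast Nat.div_le_self n d) 2)
                (by positivity) zero_le_one
          _ = (n : ℝ) ^ 2 := one_mul _
    _ = (n.divisors.card : ℝ) * (n : ℝ) ^ 2 := by simp
    _ ≤ (n : ℝ) * (n : ℝ) ^ 2 := by
        gcongr
        exact_mod_cast Nat.card_divisors_le_self n
    _ = (n : ℝ) ^ 3 := by ring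

/-- `‖eisCoeff χ n‖ ≤ n³`, so the `q`-series converges. -/
theorem summable_eisCoeff (z : ℍ) :
    Summable fun n : ℕ => eisCoeff χ n * cexp (2 * π * I * z) ^ n := by
  have hq : ‖cexp (2 * π * I * z)‖ < 1 := UpperHalfPlane.norm_exp_two_pi_I_lt_one z
  have h1 : Summable fun n : ℕ => ((n : ℝ) ^ 3 * ‖cexp (2 * π * I * z)‖ ^ n) :=
    summable_pow_mul_geometric_of_norm_lt_one 3 (by simpa using hq)
  refine Summable.of_norm_bounded h1 fun n => ?_
  rw [norm_mul, norm_pow]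
  exact mul_le_mul_of_nonneg_right (Main_norm_eisCoeff_le χ n) (by positivity)

/-- PROOF. `E := c • eisRaw χ` with `c = (∑' n, χ n / n³) / (2 ((-2πi)³/2))`: modular form on
`Γ(N)` with `HasNeb N 3 χ` (`eisRaw_hasNeb`), hence invariant under `Γ₁(N)`
(`HasNeb.invariant_G1`, `IsMF_of_invariant`).  By `tsum_twisted_gcd`, `tsum_coprime_eq_eisRaw`,
`tsum_twisted_eq_q`: `E z = ∑' n : ℕ+, eisCoeff χ n qⁿ`.  Coefficients: as in Mathlib's
`EisensteinSeries.E_qExpansion_coeff` (`ModularFormClass.qExpansion_coeff_unique`,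
with `one_mem_strictPeriods_G1`). -/
theorem exists_eis3 (hχ : χ (-1) = -1) :
    ∃ E : ModularForm (Gamma1 N) 3, HasNeb N 3 χ E ∧
      ∀ n : ℕ, ModularFormClass.qCoeff E n = eisCoeff χ n := by
  set K : ℂ := 2 * ((-2 * π * I) ^ 3 / 2) with hK
  have hK0 : K ≠ 0 := by
    rw [hK]
    have hpi : (π : ℂ) ≠ 0 := by exact_mod_cast Real.pi_ne_zero
    have : (-2 * (π : ℂ) * I) ≠ 0 := by simp [hpi, I_ne_zero]
    have h3 := pow_ne_zero 3 this
    exact mul_ne_zero two_ne_zero (div_ne_zero h3 two_ne_zero)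
  set L : ℂ := ∑' n : ℕ, χ (n : ZMod N) * ((n : ℂ) ^ 3)⁻¹ with hL
  set c : ℂ := L / K with hc
  -- the function
  have hneb : HasNeb N 3 χ (c • (eisRaw χ : ℍ → ℂ)) := by
    intro γ hγ
    rw [ModularForm.SL_smul_slash, eisRaw_hasNeb χ γ hγ, smul_comm]
  have hMF : Fermat.Agent.S23.IsMF (G1 N) 3 (c • (eisRaw χ : ℍ → ℂ)) :=
    IsMF_of_invariant (Γ' := GN N) ⟨c • eisRaw χ, rfl⟩ (HasNeb.invariant_G1 (map_one χ) hneb)
  obtain ⟨E, hE⟩ := hMF
  refine ⟨E, by rw [hE]; exact hneb, fun n => ?_⟩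
  have hval : ∀ τ : ℍ, E τ = ∑' n : ℕ+, eisCoeff χ n * cexp (2 * π * I * τ) ^ (n : ℕ) := by
    intro τ
    have h1 := tsum_twisted_eq_q χ hχ τ
    rw [tsum_twisted_gcd, tsum_coprime_eq_eisRaw, ← hK, ← hL] at h1
    rw [hE, Pi.smul_apply, smul_eq_mul, hc, div_mul_eq_mul_div, h1, mul_div_cancel_left₀ _ hK0]
  suffices ∀ τ : ℍ, HasSum (fun m ↦ eisCoeff χ m • Function.Periodic.qParam (1 : ℝ) τ ^ m) (E τ) from
    (ModularFormClass.qExpansion_coeff_unique one_pos (one_mem_strictPeriods_G1 N) this n).symm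
  intro τ
  have hS := summable_eisCoeff χ τ
  have hq : Function.Periodic.qParam (1 : ℝ) τ = cexp (2 * π * I * τ) := by
    simp [Function.Periodic.qParam]
  rw [hval τ, tsum_pnat_eq_tsum_succ (f := fun n ↦ eisCoeff χ n * cexp (2 * π * I * τ) ^ n)]
  have h0 : ∑' n : ℕ, eisCoeff χ (n + 1) * cexp (2 * π * I * τ) ^ (n + 1) =
      ∑' n : ℕ, eisCoeff χ n * cexp (2 * π * I * τ) ^ n := by
    rw [hS.tsum_eq_zero_add, eisCoeff_zero, zero_mul, zero_add]
  rw [h0]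
  simp only [smul_eq_mul, hq]
  exact hS.hasSum

end Fermat.Agent.S48.Rat
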