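import Fermat.Agent.S48.Rat.Basic

/-!
# S48-RAT : the weight 3 Eisenstein series with character, as a combination of Mathlib's
Eisenstein series `eisensteinSeriesMF` on `Γ(N)`
-/

set_option autoImplicit false

open UpperHalfPlane ModularForm CongruenceSubgroup EisensteinSeries
open scoped MatrixGroups Manifold

namespace Fermat.Agent.S48.Rat

variable {N : ℕ} [NeZero N] (χ : DirichletCharacter ℂ N)

/-- `∑_{a ∈ (ℤ/N)²} χ(a₀) E_a`, a modular form of weight 3 on `Γ(N)`. -/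
noncomputable def eisRaw : ModularForm (Gamma N) 3 :=
  ∑ a : Fin 2 → ZMod N, χ (a 0) • eisensteinSeriesMF (by norm_num) a

theorem Raw_coe :
    (eisRaw χ : ℍ → ℂ) = ∑ a : Fin 2 → ZMod N, χ (a 0) • eisensteinSeries a 3 := by
  unfold eisRaw
  have h : ∀ s : Finset (Fin 2 → ZMod N),
      ((∑ a ∈ s, χ (a 0) • eisensteinSeriesMF (k := 3) (by norm_num) a :
        ModularForm (Gamma N) 3) : ℍ → ℂ) = ∑ a ∈ s, χ (a 0) • eisensteinSeries a 3 := by
    intro s
    classical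
    induction s using Finset.induction_on with
    | empty => simp
    | insert a s ha ih =>
      rw [Finset.sum_insert ha, Finset.sum_insert ha, ← ih]
      rfl
  exact h _

theorem eisRaw_apply (z : ℍ) :
    eisRaw χ z = ∑ a : Fin 2 → ZMod N, χ (a 0) * eisensteinSeries a 3 z := by
  rw [Raw_coe]
  simp

/-- right multiplication by (the reduction of) `γ`, as a permutation of `(ℤ/N)²`. -/
noncomputable def Raw_equiv (N : ℕ) (γ : SL(2, ℤ)) : (Fin 2 → ZMod N) ≃ (Fin 2 → ZMod N) where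
  toFun a := Matrix.vecMul a (γ : Matrix (Fin 2) (Fin 2) (ZMod N))
  invFun a := Matrix.vecMul a ((γ⁻¹ : SL(2, ℤ)) : Matrix (Fin 2) (Fin 2) (ZMod N))
  left_inv a := by
    dsimp only
    rw [Matrix.vecMul_vecMul, ← Matrix.SpecialLinearGroup.coe_mul, ← map_mul, mul_inv_cancel]
    simp
  right_inv a := by
    dsimp only
    rw [Matrix.vecMul_vecMul, ← Matrix.SpecialLinearGroup.coe_mul, ← map_mul, inv_mul_cancel]
    simp

/-- PROOF. `eisensteinSeries_slash_apply : eisensteinSeries a k ∣[k] γ = eisensteinSeries (a ᵥ* γ) k`.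
Reindex the sum by the bijection `a ↦ a ᵥ* γ` of `(ℤ/N)²`; for `γ = (α β; c d) ∈ Γ₀(N)` one has
`(a ᵥ* γ) 0 = a₀ α + a₁ c = a₀ α`, and `α d = 1` in `ℤ/N`, so `χ(a₀) = χ(d) χ((a ᵥ* γ) 0)`. -/
theorem eisRaw_hasNeb : HasNeb N 3 χ (eisRaw χ) := by
  intro γ hγ
  rw [Raw_coe, SlashAction.sum_slash, Finset.smul_sum]
  conv_rhs => rw [← (Raw_equiv N γ).sum_comp]
  refine Finset.sum_congr rfl fun a _ => ?_
  rw [ModularForm.SL_smul_slash, eisensteinSeries_slash_apply, smul_smul]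
  congr 1
  have hc : ((γ 1 0 : ℤ) : ZMod N) = 0 := Gamma0_mem.1 hγ
  have hdet : γ 0 0 * γ 1 1 - γ 0 1 * γ 1 0 = 1 := by
    have := γ.det_coe
    rw [Matrix.det_fin_two] at this
    exact this
  have h2 : ((γ 0 0 : ℤ) : ZMod N) * ((γ 1 1 : ℤ) : ZMod N) = 1 := by
    have := congrArg (fun x : ℤ => (x : ZMod N)) hdet
    push_cast at this
    rw [hc, mul_zero, sub_zero] at this
    exact this
  have h3 : (Raw_equiv N γ) a 0 = a 0 * ((γ 0 0 : ℤ) : ZMod N) := by
    show Matrix.vecMul a (γ : Matrix (Fin 2) (Fin 2) (ZMod N)) 0 = _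
    simp [Matrix.vecMul, Matrix.vec2_dotProduct, hc]
  rw [h3, ← map_mul, mul_comm, mul_assoc, h2, mul_one]

end Fermat.Agent.S48.Rat
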